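import Fermat.Agent.S55.LDB.Defs

/-!
# S55-LOC (FORMAL layer) : norm groups of the unramified `p`-power layers

`PreLocalFormation` = `LDB.LocalFormation` without the field `norm_nr` (and with `ord_smul` for all
open subgroups and all elements).  We prove `norm_nr` formally:
`b ∈ A^U` is a norm from the layer `ker (nr U p^k)` iff `p^k ∣ ord U b`.
-/

namespace Fermat.Agent.S55.LOC

open Fermat.Agent.S55.LDB

/-- `LDB.LocalFormation` minus `norm_nr`. -/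
structure PreLocalFormation (p : ℕ) {G : Type*} [Group G] (𝒪 : OpenFam G)
    (A : Type*) [CommGroup A] [MulDistribMulAction G A] extends FieldFormation p 𝒪 A where
  ord : Subgroup G → A → ℤ
  ord_mul : ∀ U, 𝒪.isOpen U → ∀ a b : A, Fix U a → Fix U b → ord U (a * b) = ord U a + ord U b
  exists_unif : ∀ U, 𝒪.isOpen U → ∃ π : A, Fix U π ∧ ord U π = 1
  ord_smul : ∀ N, 𝒪.isOpen N → ∀ (g : G) (a : A), ord N (g • a) = ord N a
  nr : Subgroup G → (n : ℕ) → G → ZMod n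
  nr_char : ∀ U, 𝒪.isOpen U → ∀ n, n ≠ 0 → IsChar 𝒪 U (nr U n)
  nr_surj : ∀ U, 𝒪.isOpen U → ∀ n, n ≠ 0 → ∃ σ ∈ U, nr U n σ = 1
  nr_cast : ∀ U, 𝒪.isOpen U → ∀ n m, n ≠ 0 → m ≠ 0 → ∀ g ∈ U,
    ZMod.castHom (Dvd.intro m rfl : n ∣ n * m) (ZMod n) (nr U (n * m) g) = nr U n g
  ef : ∀ U V, 𝒪.isOpen U → 𝒪.isOpen V → V ≤ U → ∃ e f : ℕ, e * f = V.relIndex U ∧
    (∀ a : A, Fix U a → ord V a = e * ord U a) ∧
    (∀ n, n ≠ 0 → ∀ g ∈ V, nr U n g = f * nr V n g)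
  idx_ne : ∀ U, 𝒪.isOpen U → ∀ ψ : G → ZMod p, IsChar 𝒪 U ψ → (∃ σ ∈ U, ψ σ = 1) →
    ∃ b : A, Fix U b ∧ ¬ IsNm U ψ b
  idx_gen : ∀ U, 𝒪.isOpen U → ∀ ψ : G → ZMod p, IsChar 𝒪 U ψ → (∃ σ ∈ U, ψ σ = 1) →
    ∀ b₀ b : A, Fix U b₀ → Fix U b → ¬ IsNm U ψ b₀ → ∃ j : ℕ, IsNm U ψ (b * b₀ ^ j)

variable {p : ℕ} [Fact p.Prime] {G : Type*} [Group G] {𝒪 : OpenFam G}
  {A : Type*} [CommGroup A] [MulDistribMulAction G A]

section NormNrAux
variable {G : Type*} [Group G] {A : Type*} [CommGroup A] [MulDistribMulAction G A]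

theorem NormNr_hom_one {n : ℕ} {U : Subgroup G} {χ : G → ZMod n} (h : HomOn U χ) : χ 1 = 0 := by
  have := h 1 U.one_mem 1 U.one_mem
  rw [mul_one] at this
  exact add_eq_left.mp this.symm

theorem NormNr_hom_pow {n : ℕ} {U : Subgroup G} {χ : G → ZMod n} (h : HomOn U χ) {g : G}
    (hg : g ∈ U) (i : ℕ) : χ (g ^ i) = i * χ g := by
  induction i with
  | zero => simp [NormNr_hom_one h]
  | succ i ih =>
    rw [pow_succ, h _ (U.pow_mem hg i) _ hg, ih]
    push_cast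
    ring

theorem NormNr_hom_inv {n : ℕ} {U : Subgroup G} {χ : G → ZMod n} (h : HomOn U χ) {g : G}
    (hg : g ∈ U) : χ g⁻¹ = - χ g := by
  have := h g hg g⁻¹ (U.inv_mem hg)
  rw [mul_inv_cancel, NormNr_hom_one h] at this
  exact eq_neg_of_add_eq_zero_right this.symm

theorem NormNr_nrm_mul (σ : G) (n : ℕ) (x y : A) : nrm σ n (x * y) = nrm σ n x * nrm σ n y := by
  simp [nrm, smul_mul', Finset.prod_mul_distrib]

theorem NormNr_nrm_inv (σ : G) (n : ℕ) (x : A) : nrm σ n x⁻¹ = (nrm σ n x)⁻¹ := by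
  simp [nrm, smul_inv', Finset.prod_inv_distrib]

theorem NormNr_nrm_one (σ : G) (n : ℕ) : nrm σ n (1 : A) = 1 := by
  simp [nrm]

theorem NormNr_pow_smul_of_fix {σ : G} {x : A} (h : σ • x = x) (i : ℕ) : σ ^ i • x = x := by
  induction i with
  | zero => simp
  | succ i ih => rw [pow_succ, mul_smul, h, ih]

theorem NormNr_nrm_of_fix {σ : G} {x : A} (h : σ • x = x) (n : ℕ) : nrm σ n x = x ^ n := by
  simp [nrm, NormNr_pow_smul_of_fix h]

theorem NormNr_nrm_mul_index (σ : G) (n m : ℕ) (x : A) :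
    nrm σ (n * m) x = nrm σ n (nrm (σ ^ n) m x) := by
  induction m with
  | zero => simp [nrm]
  | succ m ih =>
    have e1 : nrm σ (n * (m + 1)) x = nrm σ (n * m) x * ∏ i ∈ Finset.range n, σ ^ (n * m + i) • x := by
      rw [Nat.mul_succ]
      exact Finset.prod_range_add _ _ _
    have e2 : nrm (σ ^ n) (m + 1) x = nrm (σ ^ n) m x * (σ ^ n) ^ m • x := by
      exact Finset.prod_range_succ _ _
    rw [e1, e2, NormNr_nrm_mul, ih]
    congr 1
    unfold nrm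
    refine Finset.prod_congr rfl ?_
    intro i _
    rw [smul_smul, ← pow_mul, ← pow_add, add_comm]

theorem NormNr_smul_congr {n : ℕ} {U : Subgroup G} {χ : G → ZMod n} (h : HomOn U χ) {x : A}
    (hx : ∀ g ∈ U, χ g = 0 → g • x = x) {σ σ' : G} (hσ : σ ∈ U) (hσ' : σ' ∈ U)
    (e : χ σ = χ σ') : σ • x = σ' • x := by
  have h1 : (σ⁻¹ * σ') • x = x :=
    hx _ (U.mul_mem (U.inv_mem hσ) hσ')
      (by rw [h _ (U.inv_mem hσ) _ hσ', NormNr_hom_inv h hσ, e]; ring)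
  calc σ • x = σ • ((σ⁻¹ * σ') • x) := by rw [h1]
    _ = σ' • x := by rw [smul_smul, mul_inv_cancel_left]

theorem NormNr_nrm_congr {n : ℕ} {U : Subgroup G} {χ : G → ZMod n} (h : HomOn U χ) {x : A}
    (hx : ∀ g ∈ U, χ g = 0 → g • x = x) {σ σ' : G} (hσ : σ ∈ U) (hσ' : σ' ∈ U)
    (e : χ σ = χ σ') (m : ℕ) : nrm σ m x = nrm σ' m x := by
  unfold nrm
  refine Finset.prod_congr rfl ?_
  intro i _
  exact NormNr_smul_congr h hx (U.pow_mem hσ i) (U.pow_mem hσ' i)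
    (by rw [NormNr_hom_pow h hσ, NormNr_hom_pow h hσ', e])

theorem NormNr_fix_smul {n : ℕ} {U : Subgroup G} {χ : G → ZMod n} (h : HomOn U χ) {x : A}
    (hx : ∀ g ∈ U, χ g = 0 → g • x = x) {σ : G} (hσ : σ ∈ U) :
    ∀ g ∈ U, χ g = 0 → g • (σ • x) = σ • x := by
  intro g hg hg0
  have h1 : (σ⁻¹ * g * σ) • x = x :=
    hx _ (U.mul_mem (U.mul_mem (U.inv_mem hσ) hg) hσ)
      (by rw [h _ (U.mul_mem (U.inv_mem hσ) hg) _ hσ, h _ (U.inv_mem hσ) _ hg,
            NormNr_hom_inv h hσ, hg0]; ring)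
  calc g • (σ • x) = σ • ((σ⁻¹ * g * σ) • x) := by
        rw [smul_smul, smul_smul]; congr 1; group
    _ = σ • x := by rw [h1]

theorem NormNr_relIndex {n : ℕ} (hn : n ≠ 0) {U : Subgroup G} {χ : G → ZMod n} (h : HomOn U χ)
    (hs : ∃ σ ∈ U, χ σ = 1) : (kerOn U χ h).relIndex U = n := by
  have : NeZero n := ⟨hn⟩
  let φ : U →* Multiplicative (ZMod n) :=
    { toFun := fun g => Multiplicative.ofAdd (χ g)
      map_one' := by
        show Multiplicative.ofAdd (χ ((1 : U) : G)) = 1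
        rw [Subgroup.coe_one, NormNr_hom_one h]; rfl
      map_mul' := by
        intro a b
        show Multiplicative.ofAdd (χ ((a * b : U) : G)) = _
        rw [Subgroup.coe_mul, h _ a.2 _ b.2]; rfl }
  have hker : φ.ker = (kerOn U χ h).subgroupOf U := by
    ext g
    rw [MonoidHom.mem_ker, Subgroup.mem_subgroupOf, mem_kerOn]
    constructor
    · intro hg
      exact ⟨g.2, Multiplicative.ofAdd.injective hg⟩
    · intro hg
      show Multiplicative.ofAdd (χ g) = 1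
      rw [hg.2]; rfl
  have hsurj : Function.Surjective φ := by
    obtain ⟨σ, hσ, hσ1⟩ := hs
    intro y
    refine ⟨⟨σ ^ (Multiplicative.toAdd y).val, U.pow_mem hσ _⟩, ?_⟩
    show Multiplicative.ofAdd (χ (σ ^ (Multiplicative.toAdd y).val)) = y
    rw [NormNr_hom_pow h hσ, hσ1, mul_one, ZMod.natCast_zmod_val]
    rfl
  rw [Subgroup.relIndex, ← hker, Subgroup.index_ker, MonoidHom.range_eq_top.mpr hsurj]
  simp


theorem NormNr_zmod_cancel {n m : ℕ} (hn : n ≠ 0) (hm : m ≠ 0) (y : ZMod (n * m)) (c : ℕ)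
    (h : (n : ZMod (n * m)) * y = (n : ZMod (n * m)) * c) :
    ZMod.castHom (Dvd.intro_left n rfl : m ∣ n * m) (ZMod m) y = c := by
  have : NeZero (n * m) := ⟨mul_ne_zero hn hm⟩
  have hy : y = ((y.val : ℕ) : ZMod (n * m)) := (ZMod.natCast_zmod_val y).symm
  rw [hy] at h ⊢
  have h' : ((n * y.val : ℕ) : ZMod (n * m)) = ((n * c : ℕ) : ZMod (n * m)) := by
    push_cast
    exact h
  have h2 : n * y.val ≡ n * c [MOD n * m] := (ZMod.natCast_eq_natCast_iff _ _ _).mp h'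
  have h3 : y.val ≡ c [MOD m] := Nat.ModEq.mul_left_cancel' hn h2
  rw [map_natCast]
  exact (ZMod.natCast_eq_natCast_iff _ _ _).mpr h3

end NormNrAux

theorem NormNr_isOpen_kerOn {n : ℕ} {U : Subgroup G} {χ : G → ZMod n} (hχ : IsChar 𝒪 U χ) :
    𝒪.isOpen (kerOn U χ hχ.hom) := by
  obtain ⟨N, hN, hNU, hs⟩ := hχ.sm
  refine 𝒪.mono hN ?_
  intro s hsN
  refine ⟨hNU hsN, ?_⟩
  have := hs 1 U.one_mem s hsN
  rw [one_mul, NormNr_hom_one hχ.hom] at this
  exact this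

theorem NormNr_kerOn_le {n : ℕ} {U : Subgroup G} {χ : G → ZMod n} (h : HomOn U χ) :
    kerOn U χ h ≤ U := fun _ hg => hg.1

namespace PreLocalFormation

variable (L : PreLocalFormation p 𝒪 A)

theorem NormNr_ef_kerOn (U : Subgroup G) (hU : 𝒪.isOpen U) (n : ℕ) (hn : n ≠ 0) :
    (∀ a : A, Fix U a → L.ord (kerOn U (L.nr U n) (L.nr_char U hU n hn).hom) a = L.ord U a) ∧
    ∀ m, m ≠ 0 → ∀ g ∈ kerOn U (L.nr U n) (L.nr_char U hU n hn).hom,
      L.nr U m g = (n : ZMod m) * L.nr (kerOn U (L.nr U n) (L.nr_char U hU n hn).hom) m g := by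
  set V := kerOn U (L.nr U n) (L.nr_char U hU n hn).hom with hVdef
  have hV : 𝒪.isOpen V := NormNr_isOpen_kerOn (L.nr_char U hU n hn)
  obtain ⟨e, f, hef, hord, hnr⟩ := L.ef U V hU hV (NormNr_kerOn_le _)
  have hidx : V.relIndex U = n := NormNr_relIndex hn _ (L.nr_surj U hU n hn)
  rw [hidx] at hef
  obtain ⟨g, hgV, hg1⟩ := L.nr_surj V hV n hn
  have h1 := hnr n hn g hgV
  rw [hgV.2, hg1, mul_one] at h1
  have hnf : n ∣ f := (ZMod.natCast_eq_zero_iff f n).mp h1.symm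
  have hfn : f = n := Nat.dvd_antisymm (Dvd.intro_left e hef) hnf
  subst hfn
  have he : e = 1 := by
    have : e * f = 1 * f := by rw [hef, one_mul]
    exact Nat.eq_of_mul_eq_mul_right (Nat.pos_of_ne_zero hn) this
  subst he
  refine ⟨fun a ha => ?_, hnr⟩
  rw [hord a ha]
  simp

theorem NormNr_ord_one (U : Subgroup G) (hU : 𝒪.isOpen U) : L.ord U 1 = 0 := by
  have h1 : Fix U (1 : A) := fun g _ => smul_one g
  have := L.ord_mul U hU 1 1 h1 h1
  rw [mul_one] at this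
  linarith

theorem NormNr_ord_pow (U : Subgroup G) (hU : 𝒪.isOpen U) (a : A) (ha : Fix U a) (j : ℕ) :
    Fix U (a ^ j) ∧ L.ord U (a ^ j) = j * L.ord U a := by
  induction j with
  | zero => exact ⟨fun g _ => by simp, by simp [L.NormNr_ord_one U hU]⟩
  | succ j ih =>
    refine ⟨fun g hg => by rw [smul_pow', ha g hg], ?_⟩
    rw [pow_succ, L.ord_mul U hU _ _ ih.1 ha, ih.2]
    push_cast
    ring

theorem NormNr_ord_nrm (V : Subgroup G) (hV : 𝒪.isOpen V) (σ : G) (x : A)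
    (hx : ∀ i : ℕ, Fix V (σ ^ i • x)) (m : ℕ) :
    Fix V (nrm σ m x) ∧ L.ord V (nrm σ m x) = m * L.ord V x := by
  induction m with
  | zero => exact ⟨fun g _ => by simp [nrm], by simp [nrm, L.NormNr_ord_one V hV]⟩
  | succ m ih =>
    have e : nrm σ (m + 1) x = nrm σ m x * σ ^ m • x := Finset.prod_range_succ _ _
    refine ⟨fun g hg => by rw [e, smul_mul', ih.1 g hg, hx m g hg], ?_⟩
    rw [e, L.ord_mul V hV _ _ ih.1 (hx m), ih.2, L.ord_smul V hV]
    push_cast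
    ring

/-- the layer `V = ker (nr U n)` is unramified of degree `n`: `ord V = ord U` on `A^U`. -/
theorem ord_kerOn (U : Subgroup G) (hU : 𝒪.isOpen U) (n : ℕ) (hn : n ≠ 0) (a : A) (ha : Fix U a) :
    L.ord (kerOn U (L.nr U n) (L.nr_char U hU n hn).hom) a = L.ord U a :=
  (L.NormNr_ef_kerOn U hU n hn).1 a ha

theorem NormNr_ord_eq (U : Subgroup G) (hU : 𝒪.isOpen U) (n : ℕ) (hn : n ≠ 0) (b : A)
    (hb : Fix U b) {σ : G} (hσ : σ ∈ U) {x : A} (hx : ∀ g ∈ U, L.nr U n g = 0 → g • x = x)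
    (hN : nrm σ n x = b) :
    L.ord U b = n * L.ord (kerOn U (L.nr U n) (L.nr_char U hU n hn).hom) x := by
  have hV : 𝒪.isOpen (kerOn U (L.nr U n) (L.nr_char U hU n hn).hom) :=
    NormNr_isOpen_kerOn (L.nr_char U hU n hn)
  rw [← L.ord_kerOn U hU n hn b hb, ← hN]
  refine (L.NormNr_ord_nrm _ hV σ x ?_ n).2
  intro i g hg
  exact NormNr_fix_smul (L.nr_char U hU n hn).hom hx (U.pow_mem hσ i) g hg.1 hg.2

/-- `⇒` : `ord U (N x) = n · ord V x`. -/
theorem dvd_ord_of_isNm (U : Subgroup G) (hU : 𝒪.isOpen U) (n : ℕ) (hn : n ≠ 0) (b : A)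
    (hb : Fix U b) (h : IsNm U (L.nr U n) b) : (n : ℤ) ∣ L.ord U b := by
  obtain ⟨σ, hσ, _, x, hx, hN⟩ := h
  rw [L.NormNr_ord_eq U hU n hn b hb hσ hx hN]
  exact Dvd.intro _ rfl

/-- the case `k = 1`, from `idx_gen` with `b₀` a uniformiser. -/
theorem isNm_of_dvd_ord_one (U : Subgroup G) (hU : 𝒪.isOpen U) (b : A) (hb : Fix U b)
    (h : (p : ℤ) ∣ L.ord U b) : IsNm U (L.nr U p) b := by
  have hp : p ≠ 0 := (Fact.out : p.Prime).ne_zero
  obtain ⟨π, hπ, hπ1⟩ := L.exists_unif U hU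
  have hnot : ¬ IsNm U (L.nr U p) π := by
    intro hN
    have := L.dvd_ord_of_isNm U hU p hp π hπ hN
    rw [hπ1] at this
    have h2 : (p : ℤ) ∣ 1 := this
    have h3 : p ∣ 1 := by exact_mod_cast h2
    exact (Fact.out : p.Prime).one_lt.ne' (Nat.dvd_one.mp h3)
  obtain ⟨j, hj⟩ := L.idx_gen U hU (L.nr U p) (L.nr_char U hU p hp) (L.nr_surj U hU p hp) π b hπ hb
    hnot
  have hπj := L.NormNr_ord_pow U hU π hπ j
  have hfix : Fix U (b * π ^ j) := fun g hg => by rw [smul_mul', hb g hg, hπj.1 g hg]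
  have hd := L.dvd_ord_of_isNm U hU p hp _ hfix hj
  rw [L.ord_mul U hU _ _ hb hπj.1, hπj.2, hπ1, mul_one] at hd
  have hpj : (p : ℤ) ∣ (j : ℤ) := (Int.dvd_add_right h).mp hd
  have hpj' : p ∣ j := by exact_mod_cast hpj
  obtain ⟨m, rfl⟩ := hpj'
  obtain ⟨σ, hσ, hσ1, x, hx, hN⟩ := hj
  have hπm := (L.NormNr_ord_pow U hU π hπ m).1
  refine ⟨σ, hσ, hσ1, x * (π ^ m)⁻¹, ?_, ?_⟩
  · intro g hg hg0
    rw [smul_mul', smul_inv', hx g hg hg0, hπm g hg]
  · rw [NormNr_nrm_mul, NormNr_nrm_inv, hN, NormNr_nrm_of_fix (hπm σ hσ), ← pow_mul, mul_comm m p]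
    simp

theorem NormNr_nr_cast (U : Subgroup G) (hU : 𝒪.isOpen U) {d N : ℕ} (hd : d ∣ N) (hN : N ≠ 0)
    (g : G) (hg : g ∈ U) : ZMod.castHom hd (ZMod d) (L.nr U N g) = L.nr U d g := by
  obtain ⟨c, rfl⟩ := hd
  exact L.nr_cast U hU d c (left_ne_zero_of_mul hN) (right_ne_zero_of_mul hN) g hg

theorem NormNr_step (U : Subgroup G) (hU : 𝒪.isOpen U) (n m : ℕ) (hn : n ≠ 0) (hm : m ≠ 0) (b : A)
    {σ : G} (hσ : σ ∈ U) (hσ1 : L.nr U n σ = 1) {x₁ : A}
    (hx₁ : ∀ g ∈ U, L.nr U n g = 0 → g • x₁ = x₁) (hN₁ : nrm σ n x₁ = b)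
    (h2 : IsNm (kerOn U (L.nr U n) (L.nr_char U hU n hn).hom)
      (L.nr (kerOn U (L.nr U n) (L.nr_char U hU n hn).hom) m) x₁) :
    IsNm U (L.nr U (n * m)) b := by
  set V := kerOn U (L.nr U n) (L.nr_char U hU n hn).hom with hVdef
  have hV : 𝒪.isOpen V := NormNr_isOpen_kerOn (L.nr_char U hU n hn)
  have hnm : n * m ≠ 0 := mul_ne_zero hn hm
  obtain ⟨τ, hτV, hτ1, x, hx, hNx⟩ := h2
  obtain ⟨σ', hσ', hσ'1⟩ := L.nr_surj U hU (n * m) hnm
  have hσ'n : L.nr U n σ' = 1 := by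
    rw [← L.NormNr_nr_cast U hU (Dvd.intro m rfl : n ∣ n * m) hnm σ' hσ', hσ'1, map_one]
  have hpowV : σ' ^ n ∈ V :=
    ⟨U.pow_mem hσ' n, by rw [NormNr_hom_pow (L.nr_char U hU n hn).hom hσ', hσ'n]; simp⟩
  have key := (L.NormNr_ef_kerOn U hU n hn).2 (n * m) hnm
  have hpow1 : L.nr V m (σ' ^ n) = 1 := by
    have e := key (σ' ^ n) hpowV
    rw [NormNr_hom_pow (L.nr_char U hU (n * m) hnm).hom hσ', hσ'1] at e
    rw [← L.NormNr_nr_cast V hV (Dvd.intro_left n rfl : m ∣ n * m) hnm _ hpowV]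
    have := NormNr_zmod_cancel hn hm (L.nr V (n * m) (σ' ^ n)) 1 (by rw [← e]; simp)
    simpa using this
  refine ⟨σ', hσ', hσ'1, x, ?_, ?_⟩
  · intro g hg hg0
    have hgV : g ∈ V := by
      refine ⟨hg, ?_⟩
      rw [← L.NormNr_nr_cast U hU (Dvd.intro m rfl : n ∣ n * m) hnm g hg, hg0, map_zero]
    refine hx g hgV ?_
    have e := key g hgV
    rw [hg0] at e
    rw [← L.NormNr_nr_cast V hV (Dvd.intro_left n rfl : m ∣ n * m) hnm _ hgV]
    have := NormNr_zmod_cancel hn hm (L.nr V (n * m) g) 0 (by rw [← e]; simp)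
    simpa using this
  · rw [NormNr_nrm_mul_index,
      NormNr_nrm_congr (L.nr_char V hV m hm).hom hx hpowV hτV (hpow1.trans hτ1.symm) m, hNx,
      NormNr_nrm_congr (L.nr_char U hU n hn).hom hx₁ hσ' hσ (hσ'n.trans hσ1.symm) n, hN₁]

theorem norm_nr (U : Subgroup G) (hU : 𝒪.isOpen U) (k : ℕ) (b : A) (hb : Fix U b) :
    IsNm U (L.nr U (p ^ k)) b ↔ ((p ^ k : ℕ) : ℤ) ∣ L.ord U b := by
  have hp : p ≠ 0 := (Fact.out : p.Prime).ne_zero
  constructor
  · exact L.dvd_ord_of_isNm U hU (p ^ k) (pow_ne_zero k hp) b hb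
  · induction k generalizing U b with
    | zero =>
      intro _
      refine ⟨1, U.one_mem, ?_, b, fun g hg _ => hb g hg, ?_⟩
      · have : Subsingleton (ZMod (p ^ 0)) := by
          rw [pow_zero]; infer_instance
        exact Subsingleton.elim _ _
      · simp [nrm]
    | succ k ih =>
      intro h
      have hdp : (p : ℤ) ∣ L.ord U b := by
        refine dvd_trans ?_ h
        push_cast
        exact Dvd.intro_left _ (pow_succ _ _).symm
      obtain ⟨σ, hσ, hσ1, x₁, hx₁, hN₁⟩ := L.isNm_of_dvd_ord_one U hU b hb hdp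
      have hV : 𝒪.isOpen (kerOn U (L.nr U p) (L.nr_char U hU p hp).hom) :=
        NormNr_isOpen_kerOn (L.nr_char U hU p hp)
      have hord := L.NormNr_ord_eq U hU p hp b hb hσ hx₁ hN₁
      have hfix : Fix (kerOn U (L.nr U p) (L.nr_char U hU p hp).hom) x₁ :=
        fun g hg => hx₁ g hg.1 hg.2
      have hd : ((p ^ k : ℕ) : ℤ) ∣ L.ord (kerOn U (L.nr U p) (L.nr_char U hU p hp).hom) x₁ := by
        rw [hord] at h
        push_cast at h ⊢
        rw [pow_succ'] at h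
        exact (mul_dvd_mul_iff_left (by exact_mod_cast hp)).mp h
      have h2 := ih _ hV x₁ hfix hd
      rw [pow_succ']
      exact L.NormNr_step U hU p (p ^ k) hp (pow_ne_zero k hp) b hσ hσ1 hx₁ hN₁ h2

/-- The local formation. -/
def toLocalFormation : LocalFormation p 𝒪 A where
  toFieldFormation := L.toFieldFormation
  ord := L.ord
  ord_mul := L.ord_mul
  exists_unif := L.exists_unif
  ord_smul := fun N hN _ g a _ => L.ord_smul N hN g a
  nr := L.nr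
  nr_char := L.nr_char
  nr_surj := L.nr_surj
  nr_cast := L.nr_cast
  ef := L.ef
  norm_nr := L.norm_nr
  idx_ne := L.idx_ne
  idx_gen := L.idx_gen

end PreLocalFormation

end Fermat.Agent.S55.LOC
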