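import Fermat.Agent.S55.LDB.Defs
import Fermat.Agent.S55.HQ.ChevalleyMul

/-!
# S55-LOC (FORMAL layer) : the norm index of a cyclic layer of degree `p` from `[A^U : (A^U)^p]`

Abstract language of `LDB/Defs.lean` (group `G`, family of open subgroups, `G`-module `A`).
Input: a field formation (Hilbert 90) and the formula
`[A^U : (A^U)^p] = #A^U[p] · p · c^[G:U]` for all open `U`.
Output: `A^U / N A^V` has order `p` for `V = ker ψ`, `ψ : U ->> ZMod p`  (fields `idx_ne`, `idx_gen`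
of `LDB.LocalFormation`), by Chevalley's formula `HQ.chevalley_mul` for `M = A^V`, `s = σ`.
-/

namespace Fermat.Agent.S55.LOC

open Fermat.Agent.S55.LDB Fermat.Agent.S55.HQ

variable {G : Type*} [Group G]

/-- `A^U` as a subgroup of `A`. -/
def fixSub (A : Type*) [CommGroup A] [MulDistribMulAction G A] (U : Subgroup G) : Subgroup A where
  carrier := {a | Fix U a}
  mul_mem' := by
    intro a b ha hb g hg
    rw [smul_mul', ha g hg, hb g hg]
  one_mem' := by
    intro g _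
    exact smul_one g
  inv_mem' := by
    intro a ha g hg
    rw [smul_inv', ha g hg]

variable {𝒪 : OpenFam G} {A : Type*} [CommGroup A] [MulDistribMulAction G A]

theorem mem_fixSub {U : Subgroup G} {a : A} : a ∈ fixSub A U ↔ Fix U a := Iff.rfl

section helpers

variable {p : ℕ} {U : Subgroup G} {ψ : G → ZMod p}

theorem Idx_map_one (hψ : HomOn U ψ) : ψ 1 = 0 := by
  have := hψ 1 U.one_mem 1 U.one_mem
  rw [mul_one] at this
  exact add_eq_left.mp this.symm

theorem Idx_map_inv (hψ : HomOn U ψ) {g : G} (hg : g ∈ U) : ψ g⁻¹ = - ψ g := by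
  have := hψ g hg g⁻¹ (U.inv_mem hg)
  rw [mul_inv_cancel, Idx_map_one hψ] at this
  exact (neg_eq_of_add_eq_zero_right this.symm).symm

theorem Idx_map_pow (hψ : HomOn U ψ) {g : G} (hg : g ∈ U) (i : ℕ) : ψ (g ^ i) = i * ψ g := by
  induction i with
  | zero => simp [Idx_map_one hψ]
  | succ i ih =>
    rw [pow_succ, hψ _ (U.pow_mem hg i) _ hg, ih]
    push_cast
    ring

/-- elements of `U` with the same value of `ψ` act in the same way on `A^{ker ψ}`. -/
theorem Idx_smul_eq (hψ : HomOn U ψ) {x : A} (hx : ∀ g ∈ U, ψ g = 0 → g • x = x)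
    {g g' : G} (hg : g ∈ U) (hg' : g' ∈ U) (h : ψ g = ψ g') : g • x = g' • x := by
  have h1 : (g'⁻¹ * g) • x = x := by
    apply hx _ (U.mul_mem (U.inv_mem hg') hg)
    rw [hψ _ (U.inv_mem hg') _ hg, Idx_map_inv hψ hg', h, neg_add_cancel]
  rw [mul_smul, inv_smul_eq_iff] at h1
  exact h1

theorem Idx_nrm_add (σ : G) (m n : ℕ) (x : A) :
    LDB.nrm σ (m + n) x = LDB.nrm σ m x * σ ^ m • LDB.nrm σ n x := by
  unfold LDB.nrm
  rw [Finset.prod_range_add, Finset.smul_prod']
  congr 1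
  refine Finset.prod_congr rfl fun i _ => ?_
  rw [smul_smul, pow_add]

theorem Idx_nrm_mod {σ : G} {x : A} (hN : LDB.nrm σ p x = 1) (k : ℕ) :
    LDB.nrm σ k x = LDB.nrm σ (k % p) x := by
  have h : ∀ q r : ℕ, LDB.nrm σ (r + p * q) x = LDB.nrm σ r x := by
    intro q
    induction q with
    | zero => intro r; simp
    | succ q ih =>
      intro r
      rw [Nat.mul_succ, ← add_assoc, Idx_nrm_add, hN, smul_one, mul_one, ih]
  conv_lhs => rw [← Nat.mod_add_div k p]
  exact h _ _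

end helpers

/-- cyclic Hilbert 90 in a field formation. -/
theorem cyclic_h90 (p : ℕ) [Fact p.Prime] (FF : FieldFormation p 𝒪 A)
    (U : Subgroup G) (hU : 𝒪.isOpen U) (ψ : G → ZMod p) (hψ : IsChar 𝒪 U ψ)
    (σ : G) (hσU : σ ∈ U) (hσ : ψ σ = 1) (x : A) (hx : ∀ g ∈ U, ψ g = 0 → g • x = x)
    (hN : nrm σ p x = 1) :
    ∃ y : A, (∀ g ∈ U, ψ g = 0 → g • y = y) ∧ x = σ • y / y := by
  have hp : p.Prime := Fact.out
  have : Fact (1 < p) := ⟨hp.one_lt⟩
  have hsm : Sm₁ 𝒪 U (fun g => LDB.nrm σ (ψ g).val x) := by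
    obtain ⟨N, hN1, hN2, hN3⟩ := hψ.sm
    exact ⟨N, hN1, hN2, fun g hg s hs => by simp only [hN3 g hg s hs]⟩
  have hcoc : Coc₁ U (fun g => LDB.nrm σ (ψ g).val x) := by
    intro g hg h hh
    simp only
    have h1 : g • LDB.nrm σ (ψ h).val x = σ ^ (ψ g).val • LDB.nrm σ (ψ h).val x := by
      unfold LDB.nrm
      rw [Finset.smul_prod', Finset.smul_prod']
      refine Finset.prod_congr rfl fun i _ => ?_
      rw [smul_smul, smul_smul]
      apply Idx_smul_eq hψ.hom hx (U.mul_mem hg (U.pow_mem hσU i))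
        (U.mul_mem (U.pow_mem hσU _) (U.pow_mem hσU i))
      rw [hψ.hom _ hg _ (U.pow_mem hσU i), hψ.hom _ (U.pow_mem hσU _) _ (U.pow_mem hσU i),
        Idx_map_pow hψ.hom hσU (ψ g).val, hσ, mul_one, ZMod.natCast_zmod_val]
    rw [h1, mul_comm, ← Idx_nrm_add, hψ.hom g hg h hh, ZMod.val_add, ← Idx_nrm_mod hN]
  obtain ⟨a, ha⟩ := FF.h90 U hU _ hsm hcoc
  refine ⟨a, fun g hg hg0 => ?_, ?_⟩
  · have := ha g hg
    simp only [hg0, ZMod.val_zero] at this
    have h2 : LDB.nrm σ 0 x = 1 := by simp [LDB.nrm]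
    rw [h2] at this
    exact (div_eq_one.1 this.symm)
  · have := ha σ hσU
    simp only [hσ, ZMod.val_one] at this
    rw [← this]
    simp [LDB.nrm]

/-- `IsNm` does not depend on the choice of `σ`. -/
theorem isNm_iff (p : ℕ) [Fact p.Prime] (U : Subgroup G) (ψ : G → ZMod p) (hψ : HomOn U ψ)
    (σ : G) (hσU : σ ∈ U) (hσ : ψ σ = 1) (b : A) :
    IsNm U ψ b ↔ ∃ x : A, (∀ g ∈ U, ψ g = 0 → g • x = x) ∧ nrm σ p x = b := by
  constructor
  · rintro ⟨σ', hσ'U, hσ', x, hx, rfl⟩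
    refine ⟨x, hx, ?_⟩
    unfold LDB.nrm
    refine Finset.prod_congr rfl fun i _ => ?_
    apply Idx_smul_eq hψ hx (U.pow_mem hσU i) (U.pow_mem hσ'U i)
    rw [Idx_map_pow hψ hσU, Idx_map_pow hψ hσ'U, hσ, hσ']
  · rintro ⟨x, hx, hN⟩
    exact ⟨σ, hσU, hσ, x, hx, hN⟩

/-- **(B), formal version.** -/
theorem idx_of_powIdx (p : ℕ) [Fact p.Prime] (FF : FieldFormation p 𝒪 A) (c : ℕ) (hc : c ≠ 0)
    (hA : ∀ U, 𝒪.isOpen U →
      powIdx p (fixSub A U) = torCard p (fixSub A U) * p * c ^ U.index)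
    (U : Subgroup G) (hU : 𝒪.isOpen U) (ψ : G → ZMod p) (hψ : IsChar 𝒪 U ψ)
    (hσ : ∃ σ ∈ U, ψ σ = 1) :
    (∃ b : A, Fix U b ∧ ¬ IsNm U ψ b) ∧
    (∀ b₀ b : A, Fix U b₀ → Fix U b → ¬ IsNm U ψ b₀ → ∃ j : ℕ, IsNm U ψ (b * b₀ ^ j)) := by
  classical
  have hp : p.Prime := Fact.out
  obtain ⟨σ, hσU, hσ⟩ := hσ
  have hh := hψ.hom
  set V : Subgroup G := kerOn U ψ hh with hV
  have hVU : V ≤ U := fun g hg => hg.1
  have hVopen : 𝒪.isOpen V := by
    obtain ⟨N, hN1, hN2, hN3⟩ := hψ.sm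
    refine 𝒪.mono hN1 fun s hs => ⟨hN2 hs, ?_⟩
    have := hN3 1 U.one_mem s hs
    rwa [one_mul, Idx_map_one hh] at this
  have hfixV : ∀ {x : A}, Fix V x ↔ ∀ g ∈ U, ψ g = 0 → g • x = x :=
    ⟨fun h g hg h0 => h g ⟨hg, h0⟩, fun h g hg => h g hg.1 hg.2⟩
  -- the index of `V`
  have hrel : V.relIndex U = p := by
    let f : U →* Multiplicative (ZMod p) :=
      { toFun := fun u => Multiplicative.ofAdd (ψ u)
        map_one' := by
          change Multiplicative.ofAdd (ψ 1) = 1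
          rw [Idx_map_one hh]; rfl
        map_mul' := fun a b => by
          change Multiplicative.ofAdd (ψ (a * b)) = _
          rw [hh _ a.2 _ b.2]; rfl }
    have hker : f.ker = V.subgroupOf U := by
      ext u
      rw [MonoidHom.mem_ker, Subgroup.mem_subgroupOf]
      constructor
      · intro h
        exact ⟨u.2, h⟩
      · intro h
        exact h.2
    have hsurj : Function.Surjective f := by
      intro z
      refine ⟨⟨σ ^ (Multiplicative.toAdd z).val, U.pow_mem hσU _⟩, ?_⟩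
      change Multiplicative.ofAdd (ψ (σ ^ (Multiplicative.toAdd z).val)) = z
      rw [Idx_map_pow hh hσU, hσ, mul_one, ZMod.natCast_zmod_val]
      rfl
    rw [Subgroup.relIndex, ← hker, Subgroup.index_ker, MonoidHom.range_eq_top.2 hsurj,
      Nat.card_congr Subgroup.topEquiv.toEquiv, Nat.card_eq_fintype_card, Fintype.card_multiplicative,
      ZMod.card]
  have hindex : V.index = p * U.index := by
    rw [← hrel, Subgroup.relIndex_mul_index hVU]
  -- the module `M = A^V` and `s`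
  have hstab : ∀ x : A, Fix V x → Fix V (σ • x) := by
    intro x hx v hv
    rw [smul_smul]
    apply Idx_smul_eq hh (hfixV.1 hx) (U.mul_mem hv.1 hσU) hσU
    rw [hh _ hv.1 _ hσU, hv.2, zero_add]
  let s : ↥(fixSub A V) →* ↥(fixSub A V) :=
    { toFun := fun x => ⟨σ • (x : A), hstab x x.2⟩
      map_one' := Subtype.ext (smul_one σ)
      map_mul' := fun a b => Subtype.ext (smul_mul' σ (a : A) b) }
  have hs_iter : ∀ (i : ℕ) (x : ↥(fixSub A V)),
      ((s^[i] x : ↥(fixSub A V)) : A) = σ ^ i • (x : A) := by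
    intro i
    induction i with
    | zero => intro x; simp
    | succ i ih =>
      intro x
      rw [Function.iterate_succ_apply', pow_succ', mul_smul, ← ih]
      rfl
  have hs : ∀ x, s^[p] x = x := by
    intro x
    apply Subtype.ext
    rw [hs_iter]
    have := Idx_smul_eq hh (hfixV.1 x.2) (U.pow_mem hσU p) U.one_mem
      (by rw [Idx_map_pow hh hσU, Idx_map_one hh]; simp)
    rw [this, one_smul]
  have hnrm : ∀ x : ↥(fixSub A V),
      ((nrmM p s x : ↥(fixSub A V)) : A) = LDB.nrm σ p (x : A) := by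
    intro x
    rw [nrmM_apply, Subgroup.val_finsetProd]
    exact Finset.prod_congr rfl fun i _ => hs_iter i x
  have hfixU : ∀ x : ↥(fixSub A V), x ∈ fixM s ↔ Fix U (x : A) := by
    intro x
    rw [mem_fixM]
    constructor
    · intro h g hg
      have h1 : ∀ i : ℕ, σ ^ i • (x : A) = x := by
        intro i
        rw [← hs_iter, Function.iterate_fixed h]
      rw [Idx_smul_eq hh (hfixV.1 x.2) hg (U.pow_mem hσU (ψ g).val)
        (by rw [Idx_map_pow hh hσU, hσ, mul_one, ZMod.natCast_zmod_val]), h1]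
    · intro h
      exact Subtype.ext (h σ hσU)
  let e : ↥(fixM s) ≃* ↥(fixSub A U) :=
    { toFun := fun x => ⟨((x : ↥(fixSub A V)) : A), (hfixU x).1 x.2⟩
      invFun := fun y => ⟨⟨(y : A), fun g hg => y.2 g (hVU hg)⟩, (hfixU _).2 y.2⟩
      left_inv := fun x => rfl
      right_inv := fun y => rfl
      map_mul' := fun a b => rfl }
  have hpU : powIdx p (fixM s) = powIdx p (fixSub A U) := by
    rw [powIdx_eq_top, powIdx_eq_top p (fixSub A U)]
    exact powIdx_top_congr e p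
  have htU : torCard p (fixM s) = torCard p (fixSub A U) := by
    rw [torCard_eq_top, torCard_eq_top p (fixSub A U)]
    exact torCard_top_congr e p
  have hpV : powIdx p (⊤ : Subgroup ↥(fixSub A V)) = powIdx p (fixSub A V) :=
    (powIdx_eq_top p _).symm
  have htV : torCard p (⊤ : Subgroup ↥(fixSub A V)) = torCard p (fixSub A V) :=
    (torCard_eq_top p _).symm
  have htor : ∀ B : Subgroup A, torCard p B ≠ 0 := by
    intro B
    have hfin : (↑(B ⊓ (powMonoidHom p : A →* A).ker) : Set A).Finite := by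
      refine (Set.finite_range (fun i : Fin p => FF.ζ ^ (i : ℕ))).subset ?_
      rintro z ⟨_, hz⟩
      obtain ⟨i, rfl⟩ := FF.ζ_gen z hz
      exact ⟨⟨i % p, Nat.mod_lt _ hp.pos⟩, (pow_eq_pow_mod i FF.ζ_pow).symm⟩
    have : Finite ↥(B ⊓ (powMonoidHom p : A →* A).ker) := hfin.to_subtype
    exact Nat.card_pos.ne'
  have hM1' : hM1 p s = 1 := by
    rw [hM1, Subgroup.relIndex_eq_one]
    intro x hx
    rw [MonoidHom.mem_ker] at hx
    have hx1 : LDB.nrm σ p (x : A) = 1 := by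
      rw [← hnrm, hx]
      rfl
    obtain ⟨y, hy, hxy⟩ := cyclic_h90 p FF U hU ψ hψ σ hσU hσ x (hfixV.1 x.2) hx1
    exact ⟨⟨y, hfixV.2 hy⟩, Subtype.ext hxy.symm⟩
  have hne1 : powIdx p (⊤ : Subgroup ↥(fixSub A V)) ≠ 0 := by
    rw [hpV, hA V hVopen]
    exact mul_ne_zero (mul_ne_zero (htor _) hp.ne_zero) (pow_ne_zero _ hc)
  obtain ⟨h0, -, -, -, hform⟩ := chevalley_mul p s hs hne1 (by rw [htV]; exact htor _)
  rw [hM1', one_pow, one_mul, hpU, htU, hpV, htV, hA U hU, hA V hVopen, hindex] at hform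
  have hM0' : hM0 p s = p := by
    have h1 : hM0 p s ^ (p - 1) = p ^ (p - 1) := by
      have hpp : p ^ p = p ^ (p - 1) * p := by
        rw [← pow_succ, Nat.sub_add_cancel hp.one_le]
      have hpos : torCard p (fixSub A U) ^ p * torCard p (fixSub A V) * p * c ^ (p * U.index) ≠ 0 :=
        mul_ne_zero (mul_ne_zero (mul_ne_zero (pow_ne_zero _ (htor _)) (htor _)) hp.ne_zero)
          (pow_ne_zero _ hc)
      apply Nat.eq_of_mul_eq_mul_left (Nat.pos_of_ne_zero hpos)
      rw [mul_pow, mul_pow, hpp, ← pow_mul, mul_comm U.index p] at hform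
      linear_combination hform
    exact Nat.pow_left_injective (by have := hp.two_le; omega) h1
  have hNm : ∀ b : ↥(fixSub A V), b ∈ (nrmM p s).range ↔ IsNm U ψ (b : A) := by
    intro b
    rw [isNm_iff p U ψ hh σ hσU hσ]
    constructor
    · rintro ⟨x, rfl⟩
      exact ⟨x, hfixV.1 x.2, (hnrm x).symm⟩
    · rintro ⟨x, hx, hxb⟩
      exact ⟨⟨x, hfixV.2 hx⟩, Subtype.ext (by rw [hnrm]; exact hxb)⟩
  let H : Subgroup ↥(fixM s) := (nrmM p s).range.subgroupOf (fixM s)
  have hHidx : H.index = p := hM0'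
  have hcardQ : Nat.card (↥(fixM s) ⧸ H) = p := hHidx
  constructor
  · by_contra hcon
    push Not at hcon
    have hH : H = ⊤ := by
      rw [eq_top_iff]
      intro b _
      rw [Subgroup.mem_subgroupOf, hNm]
      exact hcon _ ((hfixU b).1 b.2)
    rw [hH, Subgroup.index_top] at hHidx
    exact hp.one_lt.ne hHidx
  · intro b₀ b hb₀ hb hnot
    let B₀ : ↥(fixM s) := e.symm ⟨b₀, hb₀⟩
    let B : ↥(fixM s) := e.symm ⟨b, hb⟩
    have hne : (QuotientGroup.mk B₀ : ↥(fixM s) ⧸ H) ≠ 1 := by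
      rw [Ne, QuotientGroup.eq_one_iff, Subgroup.mem_subgroupOf, hNm]
      exact hnot
    obtain ⟨j, hj⟩ := mem_powers_of_prime_card (g' := (QuotientGroup.mk B⁻¹ : ↥(fixM s) ⧸ H))
      hcardQ hne
    refine ⟨j, ?_⟩
    have hmem : B * B₀ ^ j ∈ H := by
      rw [← QuotientGroup.eq_one_iff, QuotientGroup.mk_mul, QuotientGroup.mk_pow]
      simp only at hj
      rw [hj, QuotientGroup.mk_inv, mul_inv_cancel]
    rw [Subgroup.mem_subgroupOf, hNm] at hmem
    exact hmem

end Fermat.Agent.S55.LOC
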